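import Mathlib
import Fermat.Agent.S20.LevelOne

/-!
# S24 (helper64): the `J`-function, basic analytic properties

`J = E₄³ / Δ` on the upper half plane: `SL(2, ℤ)`-invariance, holomorphy, `J - 1728 = E₆² / Δ`,
surjectivity, and the values at the elliptic points.
-/

set_option autoImplicit false

open UpperHalfPlane ModularForm CongruenceSubgroup Matrix.SpecialLinearGroup Filter
open scoped MatrixGroups ModularForm Manifold Topology

noncomputable section

namespace Fermat.Agent.S24.H64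

open Fermat.Agent.S20

/-- Pointwise form of the invariance of a level-one form. -/
theorem levelOne_smul {m : ℤ} (r : ModularForm 𝒮ℒ m) (γ : SL(2, ℤ)) (τ : ℍ) :
    r (γ • τ) = denom γ τ ^ m * r τ := by
  have h := congrFun (H61.levelOne_slash_eq r γ) τ
  rw [SL_slash_apply] at h
  have hd : denom γ τ ≠ 0 := denom_ne_zero γ τ
  rw [← h, zpow_neg, mul_comm (r (γ • τ)), ← mul_assoc, mul_inv_cancel₀ (zpow_ne_zero _ hd),
    one_mul]

/-- Pointwise form of the invariance of the discriminant. -/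
theorem discriminant_smul (γ : SL(2, ℤ)) (τ : ℍ) :
    discriminant (γ • τ) = denom γ τ ^ (12 : ℤ) * discriminant τ := by
  have h : (⇑CuspForm.discriminant : ℍ → ℂ) ∣[(12 : ℤ)] γ = ⇑CuspForm.discriminant :=
    CuspForm.discriminant.slash_action_eq' _ ⟨γ, rfl⟩
  have h' := congrFun h τ
  rw [SL_slash_apply] at h'
  have hd : denom γ τ ≠ 0 := denom_ne_zero γ τ
  show CuspForm.discriminant (γ • τ) = denom γ τ ^ (12 : ℤ) * CuspForm.discriminant τ
  rw [← h', zpow_neg, mul_comm (CuspForm.discriminant (γ • τ)), ← mul_assoc,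
    mul_inv_cancel₀ (zpow_ne_zero _ hd), one_mul]

/-- Klein's `J`-function `E₄³ / Δ` (so that `J i = 1728`, `J ρ = 0`). -/
def J (τ : ℍ) : ℂ := E₄ τ ^ 3 / discriminant τ

theorem J_def (τ : ℍ) : J τ = E₄ τ ^ 3 / discriminant τ := rfl

/-- `J` is `SL(2, ℤ)`-invariant. -/
theorem J_smul (γ : SL(2, ℤ)) (τ : ℍ) : J (γ • τ) = J τ := by
  have hd : denom γ τ ≠ 0 := denom_ne_zero γ τ
  have hΔ : discriminant τ ≠ 0 := discriminant_ne_zero τ
  rw [J, J, levelOne_smul E₄ γ τ, discriminant_smul γ τ]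
  have e : (denom γ τ ^ (4 : ℤ) * E₄ τ) ^ 3 = denom γ τ ^ (12 : ℤ) * E₄ τ ^ 3 := by
    rw [mul_pow, ← zpow_natCast (denom γ τ ^ (4 : ℤ)) 3, ← zpow_mul]
    norm_num
  rw [e, mul_div_mul_left _ _ (zpow_ne_zero _ hd)]

/-- `E₄` and `E₆` have no common zero. -/
theorem E₄_ne_zero_or_E₆_ne_zero (τ : ℍ) : E₄ τ ≠ 0 ∨ E₆ τ ≠ 0 := by
  by_contra h
  rw [not_or, not_not, not_not] at h
  have h1 := discriminant_eq_E₄_cube_sub_E₆_sq τ
  rw [h.1, h.2] at h1
  exact discriminant_ne_zero τ (by rw [h1]; norm_num)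

theorem E₆_ne_zero_of_E₄_eq_zero {τ : ℍ} (h : E₄ τ = 0) : E₆ τ ≠ 0 :=
  (E₄_ne_zero_or_E₆_ne_zero τ).resolve_left (not_not.mpr h)

theorem E₄_ne_zero_of_E₆_eq_zero {τ : ℍ} (h : E₆ τ = 0) : E₄ τ ≠ 0 :=
  (E₄_ne_zero_or_E₆_ne_zero τ).resolve_right (not_not.mpr h)

/-- `J - 1728 = E₆² / Δ`. -/
theorem J_sub (τ : ℍ) : J τ - 1728 = E₆ τ ^ 2 / discriminant τ := by
  have hΔ : discriminant τ ≠ 0 := discriminant_ne_zero τ
  have h1 := discriminant_eq_E₄_cube_sub_E₆_sq τ
  rw [J]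
  field_simp
  linear_combination (-1728 : ℂ) * h1

theorem J_eq_zero_iff (τ : ℍ) : J τ = 0 ↔ E₄ τ = 0 := by
  rw [J, div_eq_zero_iff]
  constructor
  · rintro (h | h)
    · exact pow_eq_zero_iff (by norm_num) |>.mp h
    · exact absurd h (discriminant_ne_zero τ)
  · intro h; left; rw [h]; norm_num

theorem J_eq_iff (τ : ℍ) : J τ = 1728 ↔ E₆ τ = 0 := by
  rw [← sub_eq_zero, J_sub, div_eq_zero_iff]
  constructor
  · rintro (h | h)
    · exact pow_eq_zero_iff (by norm_num) |>.mp h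
    · exact absurd h (discriminant_ne_zero τ)
  · intro h; left; rw [h]; norm_num

/-! ### Holomorphy -/

/-- Quotient of holomorphic functions on `ℍ` with non-vanishing denominator. -/
theorem mdifferentiable_div {f g : ℍ → ℂ} (hf : MDiff f) (hg : MDiff g) (h0 : ∀ τ, g τ ≠ 0) :
    MDiff (fun τ => f τ / g τ) := by
  rw [UpperHalfPlane.mdifferentiable_iff] at hf hg ⊢
  exact hf.div hg (fun z _ => h0 _)

theorem mdifferentiable_discriminant : MDiff (fun τ : ℍ => discriminant τ) :=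
  CuspForm.discriminant.holo'

theorem mdifferentiable_J : MDiff J := by
  have h4 : MDiff (fun τ : ℍ => E₄ τ ^ 3) := by
    have h := (E₄.holo'.mul E₄.holo').mul E₄.holo'
    have e : (fun τ : ℍ => E₄ τ ^ 3) = (⇑E₄ * ⇑E₄) * ⇑E₄ := by
      ext τ; simp only [Pi.mul_apply]; ring
    rw [e]; exact h
  exact mdifferentiable_div h4 mdifferentiable_discriminant discriminant_ne_zero

/-! ### Surjectivity -/

theorem tendsto_discriminant_zero : Tendsto (fun τ : ℍ => discriminant τ) atImInfty (𝓝 0) :=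
  discriminant_isZeroAtImInfty

/-- `J : ℍ → ℂ` is surjective: otherwise `1 / (E₄³ - c Δ)` would be a nonzero level-one
modular form of weight `-12`. -/
theorem J_surjective : Function.Surjective J := by
  intro c
  by_contra hc
  rw [not_exists] at hc
  have hne : ∀ τ : ℍ, E₄ τ ^ 3 - c * discriminant τ ≠ 0 := by
    intro τ h
    apply hc τ
    rw [J, div_eq_iff (discriminant_ne_zero τ)]
    linear_combination h
  set u : ℍ → ℂ := fun τ => 1 / (E₄ τ ^ 3 - c * discriminant τ) with hu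
  have hden : MDiff (fun τ : ℍ => E₄ τ ^ 3 - c * discriminant τ) := by
    have h4 : MDiff (fun τ : ℍ => E₄ τ ^ 3) := by
      have h := (E₄.holo'.mul E₄.holo').mul E₄.holo'
      have e : (fun τ : ℍ => E₄ τ ^ 3) = (⇑E₄ * ⇑E₄) * ⇑E₄ := by
        ext τ; simp only [Pi.mul_apply]; ring
      rw [e]; exact h
    have hc' : MDiff (fun τ : ℍ => c * discriminant τ) :=
      MDifferentiable.mul mdifferentiable_const mdifferentiable_discriminant
    exact h4.sub hc'
  have hol : MDiff u := mdifferentiable_div mdifferentiable_const hden hne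
  have inv : ∀ g : SL(2, ℤ), u ∣[(-12 : ℤ)] g = u := by
    intro g
    ext τ
    rw [SL_slash_apply]
    simp only [hu]
    rw [levelOne_smul E₄ g τ, discriminant_smul g τ]
    have hd : denom g τ ≠ 0 := denom_ne_zero g τ
    have e : (denom g τ ^ (4 : ℤ) * E₄ τ) ^ 3 = denom g τ ^ (12 : ℤ) * E₄ τ ^ 3 := by
      rw [mul_pow, ← zpow_natCast (denom g τ ^ (4 : ℤ)) 3, ← zpow_mul]
      norm_num
    rw [e, neg_neg]
    have h1 : denom g τ ^ (12 : ℤ) * E₄ τ ^ 3 - c * (denom g τ ^ (12 : ℤ) * discriminant τ)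
        = denom g τ ^ (12 : ℤ) * (E₄ τ ^ 3 - c * discriminant τ) := by ring
    rw [h1]
    field_simp [zpow_ne_zero (12 : ℤ) hd, hne τ]
  have bdd : IsBoundedAtImInfty u := by
    have h1 : Tendsto (fun τ : ℍ => E₄ τ ^ 3 - c * discriminant τ) atImInfty (𝓝 (1 ^ 3 - c * 0)) :=
      (H61.E₄_tendsto_one.pow 3).sub (tendsto_discriminant_zero.const_mul c)
    have h2 : Tendsto u atImInfty (𝓝 (1 / (1 ^ 3 - c * 0))) :=
      Tendsto.div tendsto_const_nhds h1 (by norm_num)
    exact h2.isBigO_one ℝ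
  obtain ⟨r, hr⟩ := levelOne_of_invariant hol inv bdd
  have h0 : r = 0 := rank_zero_iff_forall_zero.mp (levelOne_neg_weight_rank_zero (by norm_num)) r
  have h1 : u UpperHalfPlane.I = 0 := by rw [← hr, h0]; rfl
  exact one_div_ne_zero (hne _) h1

/-! ### Elliptic points -/

/-- A level-one form vanishes at a fixed point of `γ` whose automorphy factor is nontrivial. -/
theorem levelOne_eq_zero_of_fixed {m : ℤ} (r : ModularForm 𝒮ℒ m) (γ : SL(2, ℤ)) (τ : ℍ)
    (hfix : γ • τ = τ) (hne : denom γ τ ^ m ≠ 1) : r τ = 0 := by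
  have h := levelOne_smul r γ τ
  rw [hfix] at h
  have h2 : (denom γ τ ^ m - 1) * r τ = 0 := by linear_combination -h
  rcases mul_eq_zero.mp h2 with h3 | h3
  · exact absurd (sub_eq_zero.mp h3) hne
  · exact h3

theorem S_smul_I : ModularGroup.S • UpperHalfPlane.I = UpperHalfPlane.I := by
  apply UpperHalfPlane.ext
  rw [UpperHalfPlane.modular_S_smul]
  simp [UpperHalfPlane.coe_I, Complex.inv_I]

/-- `E₆ (i) = 0`. -/
theorem E₆_I : E₆ UpperHalfPlane.I = 0 := by
  refine levelOne_eq_zero_of_fixed E₆ ModularGroup.S _ S_smul_I ?_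
  rw [ModularGroup.denom_S, UpperHalfPlane.coe_I]
  have h : (Complex.I : ℂ) ^ (6 : ℤ) = -1 := by
    have h6 : (Complex.I : ℂ) ^ (6 : ℕ) = -1 := by
      rw [show (6 : ℕ) = 2 * 3 from rfl, pow_mul, Complex.I_sq]; norm_num
    exact_mod_cast h6
  rw [h]
  norm_num

theorem E₄_I_ne_zero : E₄ UpperHalfPlane.I ≠ 0 := E₄_ne_zero_of_E₆_eq_zero E₆_I

/-- `J (i) = 1728`. -/
theorem J_I : J UpperHalfPlane.I = 1728 := (J_eq_iff _).mpr E₆_I

/-- The elliptic point `ρ = (-1 + √3 i) / 2`. -/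
def rho : ℍ := ⟨⟨-1 / 2, Real.sqrt 3 / 2⟩, by
  show (0 : ℝ) < Real.sqrt 3 / 2
  positivity⟩

theorem coe_rho : (rho : ℂ) = ⟨-1 / 2, Real.sqrt 3 / 2⟩ := rfl

theorem rho_sq_add : (rho : ℂ) ^ 2 + (rho : ℂ) + 1 = 0 := by
  have h3 : Real.sqrt 3 * Real.sqrt 3 = 3 := Real.mul_self_sqrt (by norm_num)
  rw [coe_rho]
  apply Complex.ext
  · simp [pow_two]
    nlinarith
  · simp [pow_two]
    ring

theorem ST_smul_rho : (ModularGroup.S * ModularGroup.T) • rho = rho := by
  rw [mul_smul, UpperHalfPlane.modular_T_smul, UpperHalfPlane.modular_S_smul]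
  apply UpperHalfPlane.ext
  show (-(((1 : ℝ) +ᵥ rho : ℍ) : ℂ))⁻¹ = (rho : ℂ)
  rw [UpperHalfPlane.coe_vadd]
  have h := rho_sq_add
  apply inv_eq_of_mul_eq_one_left
  push_cast
  linear_combination -h

theorem denom_ST_rho :
    denom ((ModularGroup.S * ModularGroup.T : SL(2, ℤ)) : GL (Fin 2) ℝ) rho = (rho : ℂ) + 1 := by
  rw [ModularGroup.denom_apply]
  have h10 : (ModularGroup.S * ModularGroup.T) 1 0 = 1 := by
    simp [Matrix.SpecialLinearGroup.coe_mul, ModularGroup.coe_S, ModularGroup.coe_T,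
      Matrix.mul_apply, Fin.sum_univ_two]
  have h11 : (ModularGroup.S * ModularGroup.T) 1 1 = 1 := by
    simp [Matrix.SpecialLinearGroup.coe_mul, ModularGroup.coe_S, ModularGroup.coe_T,
      Matrix.mul_apply, Fin.sum_univ_two]
  rw [h10, h11]
  push_cast
  ring

/-- `E₄ (ρ) = 0`. -/
theorem E₄_rho : E₄ rho = 0 := by
  refine levelOne_eq_zero_of_fixed E₄ (ModularGroup.S * ModularGroup.T) _ ST_smul_rho ?_
  rw [denom_ST_rho]
  intro h4
  have h4' : ((rho : ℂ) + 1) ^ (4 : ℕ) = 1 := by exact_mod_cast h4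
  have h := rho_sq_add
  have h2 : (rho : ℂ) = -2 := by
    linear_combination (((rho : ℂ) + 1) ^ 2 + (rho : ℂ) + 1) * h - h4'
  rw [h2] at h
  norm_num at h

theorem E₆_rho_ne_zero : E₆ rho ≠ 0 := E₆_ne_zero_of_E₄_eq_zero E₄_rho

/-- `J (ρ) = 0`. -/
theorem J_rho : J rho = 0 := (J_eq_zero_iff _).mpr E₄_rho

/-- `J` is not constant. -/
theorem J_I_ne_J_rho : J UpperHalfPlane.I ≠ J rho := by
  rw [J_I, J_rho]; norm_num

end Fermat.Agent.S24.H64
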