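import Mathlib
import Fermat.Agent.S20.LevelOne
import Fermat.Agent.S20.H78.SerreD
import Fermat.Agent.S24.H64.JBasic

/-!
# S24 (helper64): derivative of the `J`-function

Ramanujan-type identities for `D E₄`, `D E₆`, `D Δ` (with unspecified nonzero constants, obtained
from the Serre derivative and the level-one dimension formulas), the formula
`D J · Δ = c · E₄² · E₆` with `c ≠ 0`, and simplicity of the zeros of `E₄` and `E₆`.
-/

set_option autoImplicit false

open UpperHalfPlane ModularForm CongruenceSubgroup Matrix.SpecialLinearGroup Filter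
open scoped MatrixGroups ModularForm Manifold Topology
open Derivative

noncomputable section

namespace Fermat.Agent.S24.H64

open Fermat.Agent.S20

/-- Cauchy estimate: the normalized derivative of a holomorphic function on `ℍ` which has a limit
at `i∞` tends to `0` at `i∞`. -/
theorem isZeroAtImInfty_normalizedDeriv {F : ℍ → ℂ} (hF : MDiff F) {c : ℂ}
    (hc : Tendsto F atImInfty (𝓝 c)) : IsZeroAtImInfty (D F) := by
  have hz : IsZeroAtImInfty (fun z => F z - c) := by
    have h := hc.sub_const c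
    rw [sub_self] at h
    exact h
  rw [isZeroAtImInfty_iff] at hz ⊢
  intro ε hε
  obtain ⟨A, hA⟩ := hz ε hε
  refine ⟨max A 1 + 1, fun z hz => ?_⟩
  have hdiff : DifferentiableOn ℂ (F ∘ ofComplex) {w | 0 < w.im} :=
    UpperHalfPlane.mdifferentiable_iff.mp hF
  have hdiff' : DifferentiableOn ℂ (fun w => (F ∘ ofComplex) w - c) {w | 0 < w.im} :=
    hdiff.sub (differentiableOn_const c)
  have hball : ∀ w ∈ Metric.closedBall (z : ℂ) 1, max A 1 ≤ w.im := by
    intro w hw
    rw [Metric.mem_closedBall, Complex.dist_eq] at hw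
    have h1 : |(w - (z : ℂ)).im| ≤ ‖w - (z : ℂ)‖ := Complex.abs_im_le_norm _
    have h2 : |w.im - z.im| ≤ 1 := by
      simpa using h1.trans hw
    have h3 := (abs_le.mp h2).1
    linarith
  have h1 : ‖deriv (fun w => (F ∘ ofComplex) w - c) z‖ ≤ ε / 1 := by
    apply Complex.norm_deriv_le_of_forall_mem_sphere_norm_le one_pos
    · refine DifferentiableOn.diffContOnCl_ball (U := {w : ℂ | 0 < w.im}) hdiff' ?_
      intro w hw
      have := hball w hw
      have h1 : (1 : ℝ) ≤ max A 1 := le_max_right _ _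
      show 0 < w.im
      linarith
    · intro w hw
      have hw' := hball w (Metric.sphere_subset_closedBall hw)
      have h1 : (1 : ℝ) ≤ max A 1 := le_max_right _ _
      have him : 0 < w.im := by linarith
      have := hA ⟨w, him⟩ (by
        show A ≤ w.im
        exact (le_max_left _ _).trans hw')
      simpa [Function.comp, ofComplex_apply_of_im_pos him] using this
  rw [div_one, deriv_sub_const] at h1
  have h2 : ‖(2 * (Real.pi : ℂ) * Complex.I)⁻¹‖ ≤ 1 := by
    rw [norm_inv, norm_mul, norm_mul, Complex.norm_I, mul_one, Complex.norm_real,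
      Complex.norm_ofNat, Real.norm_eq_abs, abs_of_pos Real.pi_pos]
    apply inv_le_one_of_one_le₀
    have := Real.pi_gt_three
    linarith
  simp only [normalizedDerivOfComplex, norm_mul]
  calc ‖(2 * (Real.pi : ℂ) * Complex.I)⁻¹‖ * ‖deriv (F ∘ ofComplex) z‖
      ≤ 1 * ε := mul_le_mul h2 h1 (norm_nonneg _) zero_le_one
    _ = ε := one_mul ε

/-- A level-one form is bounded at `i∞`. -/
theorem levelOne_isBoundedAtImInfty {m : ℤ} (r : ModularForm 𝒮ℒ m) : IsBoundedAtImInfty ⇑r :=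
  (levelOne_tendsto r).isBigO_one ℝ

/-- The Serre derivative of a level-one form is a level-one form. -/
theorem exists_serre_levelOne {m n : ℤ} (h : n = m + 2) (r : ModularForm 𝒮ℒ m) :
    ∃ s : ModularForm 𝒮ℒ n, ⇑s = serreDerivative (m : ℂ) ⇑r := by
  subst h
  refine levelOne_of_invariant (serreDerivative_mdifferentiable _ r.holo') (fun g => ?_) ?_
  · exact serreDerivative_slash_invariant r.holo' (H61.levelOne_slash_eq r g)
  · exact H78.isBoundedAtImInfty_serreDerivative _ r.holo' (levelOne_isBoundedAtImInfty r)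

/-- In weight `< 12`, a level-one form is determined by its value at `i∞`. -/
theorem levelOne_eq_mul_of_weight_lt {m : ℤ} (hm : m < 12) (s e : ModularForm 𝒮ℒ m)
    (he : Tendsto e atImInfty (𝓝 1)) (τ : ℍ) : s τ = valueAtInfty s * e τ := by
  set c : ℂ := valueAtInfty s with hc
  let u : ModularForm 𝒮ℒ m := s - c • e
  have hu : ∀ τ, u τ = s τ - c * e τ := fun τ => rfl
  have hzero : IsZeroAtImInfty (⇑u) := by
    have h1 : Tendsto (fun τ => s τ - c * e τ) atImInfty (𝓝 (c - c * 1)) :=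
      (levelOne_tendsto s).sub (he.const_mul c)
    rw [mul_one, sub_self] at h1
    exact h1.congr fun τ => (hu τ).symm
  obtain ⟨r, hr⟩ := levelOne_cusp_of_invariant u.holo' (H61.levelOne_slash_eq u) hzero
  have h0 : r = 0 :=
    rank_zero_iff_forall_zero.mp (levelOne_neg_weight_rank_zero (by omega)) r
  have h1 : s τ - c * e τ = discriminant τ * r τ := hr τ
  rw [h0] at h1
  have h2 : s τ - c * e τ = 0 := by rw [h1]; simp
  linear_combination h2

/-! ### The three Serre derivatives -/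

/-- `ϑ E₄ = c · E₆`. -/
theorem exists_serre_E₄ : ∃ c : ℂ, ∀ τ, serreDerivative 4 ⇑E₄ τ = c * E₆ τ := by
  obtain ⟨s, hs⟩ := exists_serre_levelOne (m := 4) (n := 6) (by norm_num) E₄
  refine ⟨valueAtInfty s, fun τ => ?_⟩
  have h := levelOne_eq_mul_of_weight_lt (by norm_num) s E₆ H61.E₆_tendsto_one τ
  rw [← h, hs]
  norm_num

/-- `E₄²` as a level-one form of weight `8`. -/
def E₄sq : ModularForm 𝒮ℒ 8 := mcast (by norm_num) (E₄.mul E₄)

theorem E₄sq_apply (τ : ℍ) : E₄sq τ = E₄ τ ^ 2 := by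
  show E₄ τ * E₄ τ = E₄ τ ^ 2
  ring

/-- `ϑ E₆ = c · E₄²`. -/
theorem exists_serre_E₆ : ∃ c : ℂ, ∀ τ, serreDerivative 6 ⇑E₆ τ = c * E₄ τ ^ 2 := by
  obtain ⟨s, hs⟩ := exists_serre_levelOne (m := 6) (n := 8) (by norm_num) E₆
  refine ⟨valueAtInfty s, fun τ => ?_⟩
  have he : Tendsto E₄sq atImInfty (𝓝 1) := by
    have h1 : Tendsto (fun τ => E₄ τ ^ 2) atImInfty (𝓝 (1 ^ 2)) := H61.E₄_tendsto_one.pow 2
    rw [one_pow] at h1
    exact h1.congr fun τ => (E₄sq_apply τ).symm
  have h := levelOne_eq_mul_of_weight_lt (by norm_num) s E₄sq he τ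
  rw [E₄sq_apply] at h
  rw [← h, hs]
  norm_num

/-- `ϑ Δ = 0`. -/
theorem serre_discriminant (τ : ℍ) :
    serreDerivative 12 (fun τ : ℍ => discriminant τ) τ = 0 := by
  have hol : MDiff (fun τ : ℍ => discriminant τ) := mdifferentiable_discriminant
  have hinv : ∀ g : SL(2, ℤ), (fun τ : ℍ => discriminant τ) ∣[(12 : ℤ)] g =
      fun τ : ℍ => discriminant τ := fun g =>
    CuspForm.discriminant.slash_action_eq' _ ⟨g, rfl⟩
  set u : ℍ → ℂ := serreDerivative 12 (fun τ : ℍ => discriminant τ) with hu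
  have holu : MDiff u := serreDerivative_mdifferentiable _ hol
  have hinvu : ∀ g : SL(2, ℤ), u ∣[(14 : ℤ)] g = u := fun g => by
    have h := serreDerivative_slash_invariant (k := 12) hol (γ := g) (hinv g)
    have e : ((12 : ℤ) : ℂ) = 12 := by norm_num
    rw [e] at h
    exact h
  have hzero : IsZeroAtImInfty u := by
    have h1 : IsZeroAtImInfty (D (fun τ : ℍ => discriminant τ)) :=
      isZeroAtImInfty_normalizedDeriv hol tendsto_discriminant_zero
    have h2 : Tendsto (fun τ : ℍ => EisensteinSeries.E2 τ * discriminant τ) atImInfty (𝓝 0) :=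
      isBoundedUnder_le_mul_tendsto_zero
        (EisensteinSeries.isBoundedAtImInfty_E2.isBoundedUnder_le) tendsto_discriminant_zero
    have h3 : Tendsto (fun τ : ℍ => D (fun τ : ℍ => discriminant τ) τ -
        12 * 12⁻¹ * (EisensteinSeries.E2 τ * discriminant τ)) atImInfty (𝓝 (0 - 12 * 12⁻¹ * 0)) :=
      Tendsto.sub h1 (h2.const_mul _)
    rw [mul_zero, sub_zero] at h3
    refine h3.congr fun τ => ?_
    rw [hu, serreDerivative_apply]
    ring
  obtain ⟨r, hr⟩ := levelOne_cusp_of_invariant holu hinvu hzero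
  have h0 : r = 0 := rank_zero_iff_forall_zero.mp levelOne_weight_two_rank_zero r
  rw [hr τ, h0]
  simp

/-! ### Ramanujan-type identities -/

/-- `D E₄ = c E₆ + E₂ E₄ / 3`. -/
theorem exists_D_E₄ : ∃ c : ℂ, ∀ τ, D ⇑E₄ τ = c * E₆ τ + 3⁻¹ * EisensteinSeries.E2 τ * E₄ τ := by
  obtain ⟨c, hc⟩ := exists_serre_E₄
  refine ⟨c, fun τ => ?_⟩
  have h := hc τ
  rw [serreDerivative_apply] at h
  linear_combination h

/-- `D E₆ = c E₄² + E₂ E₆ / 2`. -/
theorem exists_D_E₆ :
    ∃ c : ℂ, ∀ τ, D ⇑E₆ τ = c * E₄ τ ^ 2 + 2⁻¹ * EisensteinSeries.E2 τ * E₆ τ := by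
  obtain ⟨c, hc⟩ := exists_serre_E₆
  refine ⟨c, fun τ => ?_⟩
  have h := hc τ
  rw [serreDerivative_apply] at h
  linear_combination h

/-- `D Δ = E₂ Δ`. -/
theorem D_discriminant (τ : ℍ) :
    D (fun τ : ℍ => discriminant τ) τ = EisensteinSeries.E2 τ * discriminant τ := by
  have h := serre_discriminant τ
  rw [serreDerivative_apply] at h
  linear_combination h

/-! ### The derivative of `J` -/

theorem J_mul_discriminant (τ : ℍ) : J τ * discriminant τ = E₄ τ ^ 3 := by
  rw [J, div_mul_cancel₀ _ (discriminant_ne_zero τ)]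

/-- A holomorphic function on `ℍ` with vanishing derivative is constant. -/
theorem const_of_D_eq_zero {F : ℍ → ℂ} (hF : MDiff F) (h : ∀ τ, D F τ = 0) (τ τ' : ℍ) :
    F τ = F τ' := by
  have hdiff : DifferentiableOn ℂ (F ∘ ofComplex) {w | 0 < w.im} :=
    UpperHalfPlane.mdifferentiable_iff.mp hF
  have hpre : IsPreconnected {w : ℂ | 0 < w.im} := (convex_halfSpace_im_gt 0).isPreconnected
  have hderiv : Set.EqOn (deriv (F ∘ ofComplex)) 0 {w : ℂ | 0 < w.im} := by
    intro z hz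
    have h1 := h ⟨z, hz⟩
    simp only [normalizedDerivOfComplex] at h1
    have h2 : (2 * (Real.pi : ℂ) * Complex.I)⁻¹ ≠ 0 := by
      apply inv_ne_zero
      have := Real.pi_ne_zero
      simp [this]
    exact (mul_eq_zero.mp h1).resolve_left h2
  have key := isOpen_upperHalfPlaneSet.is_const_of_deriv_eq_zero hpre hdiff hderiv
    (x := (τ : ℂ)) (y := (τ' : ℂ)) τ.im_pos τ'.im_pos
  simpa [Function.comp, ofComplex_apply] using key

/-- `D J · Δ = 3 c · E₄² · E₆` where `c` is any constant with `D E₄ = c E₆ + E₂ E₄ / 3`. -/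
theorem D_J_mul_discriminant_of {c : ℂ}
    (hc : ∀ τ, D ⇑E₄ τ = c * E₆ τ + 3⁻¹ * EisensteinSeries.E2 τ * E₄ τ) (τ : ℍ) :
    D J τ * discriminant τ = 3 * c * E₄ τ ^ 2 * E₆ τ := by
  have hprod : J * (fun τ : ℍ => discriminant τ) = ⇑E₄ ^ 3 := by
    ext τ
    simp only [Pi.mul_apply, Pi.pow_apply]
    exact J_mul_discriminant τ
  have h1 := normalizedDerivOfComplex_mul J (fun τ : ℍ => discriminant τ) mdifferentiable_J
    mdifferentiable_discriminant
  have h2 := normalizedDerivOfComplex_pow ⇑E₄ 3 E₄.holo'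
  rw [hprod] at h1
  have h3 := congrFun h1 τ
  have h4 := congrFun h2 τ
  rw [h4] at h3
  simp only [Pi.mul_apply, Pi.add_apply, Pi.pow_apply, Pi.natCast_apply] at h3
  rw [D_discriminant τ, hc τ] at h3
  have h5 := J_mul_discriminant τ
  norm_num at h3
  linear_combination -h3 - (EisensteinSeries.E2 τ) * h5

/-- The constant in `D E₄ = c E₆ + E₂ E₄ / 3` is nonzero. -/
theorem D_E₄_const_ne_zero {c : ℂ}
    (hc : ∀ τ, D ⇑E₄ τ = c * E₆ τ + 3⁻¹ * EisensteinSeries.E2 τ * E₄ τ) : c ≠ 0 := by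
  rintro rfl
  have h : ∀ τ, D J τ = 0 := fun τ => by
    have h1 := D_J_mul_discriminant_of hc τ
    rw [mul_zero, zero_mul, zero_mul] at h1
    exact (mul_eq_zero.mp h1).resolve_right (discriminant_ne_zero τ)
  exact J_I_ne_J_rho (const_of_D_eq_zero mdifferentiable_J h _ _)

/-- **Ramanujan-type identity for `E₄`**, with a nonzero constant. -/
theorem exists_D_E₄' : ∃ c : ℂ, c ≠ 0 ∧
    ∀ τ, D ⇑E₄ τ = c * E₆ τ + 3⁻¹ * EisensteinSeries.E2 τ * E₄ τ := by
  obtain ⟨c, hc⟩ := exists_D_E₄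
  exact ⟨c, D_E₄_const_ne_zero hc, hc⟩

/-- **Derivative of `J`**: `D J · Δ = c · E₄² · E₆` with `c ≠ 0`. -/
theorem exists_D_J : ∃ c : ℂ, c ≠ 0 ∧ ∀ τ, D J τ * discriminant τ = c * E₄ τ ^ 2 * E₆ τ := by
  obtain ⟨c, hc0, hc⟩ := exists_D_E₄'
  exact ⟨3 * c, mul_ne_zero (by norm_num) hc0, fun τ => D_J_mul_discriminant_of hc τ⟩

/-- `D J τ ≠ 0` unless `J τ ∈ {0, 1728}`. -/
theorem D_J_ne_zero {τ : ℍ} (h0 : J τ ≠ 0) (h1 : J τ ≠ 1728) : D J τ ≠ 0 := by
  obtain ⟨c, hc0, hc⟩ := exists_D_J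
  have h4 : E₄ τ ≠ 0 := fun h => h0 ((J_eq_zero_iff τ).mpr h)
  have h6 : E₆ τ ≠ 0 := fun h => h1 ((J_eq_iff τ).mpr h)
  intro h
  have h2 := hc τ
  rw [h, zero_mul] at h2
  exact mul_ne_zero (mul_ne_zero hc0 (pow_ne_zero 2 h4)) h6 h2.symm

/-- `D J τ = 0` if `J τ ∈ {0, 1728}`. -/
theorem D_J_eq_zero {τ : ℍ} (h : J τ = 0 ∨ J τ = 1728) : D J τ = 0 := by
  obtain ⟨c, -, hc⟩ := exists_D_J
  have h2 := hc τ
  have h3 : c * E₄ τ ^ 2 * E₆ τ = 0 := by
    rcases h with h | h
    · rw [(J_eq_zero_iff τ).mp h]; ring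
    · rw [(J_eq_iff τ).mp h]; ring
  rw [h3] at h2
  exact (mul_eq_zero.mp h2).resolve_right (discriminant_ne_zero τ)

/-- Every zero of `E₄` is simple. -/
theorem D_E₄_ne_zero {τ : ℍ} (h : E₄ τ = 0) : D ⇑E₄ τ ≠ 0 := by
  obtain ⟨c, hc0, hc⟩ := exists_D_E₄'
  rw [hc τ, h, mul_zero, add_zero]
  exact mul_ne_zero hc0 (E₆_ne_zero_of_E₄_eq_zero h)

/-- **Ramanujan-type identity for `E₆`**, with a nonzero constant. -/
theorem exists_D_E₆' : ∃ c : ℂ, c ≠ 0 ∧
    ∀ τ, D ⇑E₆ τ = c * E₄ τ ^ 2 + 2⁻¹ * EisensteinSeries.E2 τ * E₆ τ := by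
  obtain ⟨c, hc⟩ := exists_D_E₆
  refine ⟨c, ?_, hc⟩
  rintro rfl
  -- then `D (E₆²) = E₂ E₆²`, so `D ((J - 1728) Δ) = E₂ (J - 1728) Δ` and `D J = 0`
  have hprod : (fun τ : ℍ => J τ - 1728) * (fun τ : ℍ => discriminant τ) = ⇑E₆ ^ 2 := by
    ext τ
    simp only [Pi.mul_apply, Pi.pow_apply]
    rw [J_sub, div_mul_cancel₀ _ (discriminant_ne_zero τ)]
  have hJ' : MDiff (fun τ : ℍ => J τ - 1728) := mdifferentiable_J.sub mdifferentiable_const
  have hDJ' : ∀ τ, D (fun τ : ℍ => J τ - 1728) τ = D J τ := by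
    intro τ
    have h := normalizedDerivOfComplex_sub J (fun _ : ℍ => (1728 : ℂ)) mdifferentiable_J
      mdifferentiable_const
    have h' := congrFun h τ
    rw [Pi.sub_apply, normalizedDerivOfComplex_const] at h'
    have e : (fun τ : ℍ => J τ - 1728) = J - (fun _ : ℍ => (1728 : ℂ)) := rfl
    rw [e, h']
    simp
  have h : ∀ τ, D J τ = 0 := fun τ => by
    have h1 := normalizedDerivOfComplex_mul (fun τ : ℍ => J τ - 1728)
      (fun τ : ℍ => discriminant τ) hJ' mdifferentiable_discriminant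
    have h2 := normalizedDerivOfComplex_pow ⇑E₆ 2 E₆.holo'
    rw [hprod] at h1
    have h3 := congrFun h1 τ
    have h4 := congrFun h2 τ
    rw [h4] at h3
    simp only [Pi.mul_apply, Pi.add_apply, Pi.pow_apply, Pi.natCast_apply] at h3
    rw [D_discriminant τ, hc τ, hDJ' τ] at h3
    have h5 : (J τ - 1728) * discriminant τ = E₆ τ ^ 2 := by
      rw [J_sub, div_mul_cancel₀ _ (discriminant_ne_zero τ)]
    norm_num at h3
    have h6 : D J τ * discriminant τ = 0 := by
      linear_combination -h3 - (EisensteinSeries.E2 τ) * h5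
    exact (mul_eq_zero.mp h6).resolve_right (discriminant_ne_zero τ)
  exact J_I_ne_J_rho (const_of_D_eq_zero mdifferentiable_J h _ _)

/-- Every zero of `E₆` is simple. -/
theorem D_E₆_ne_zero {τ : ℍ} (h : E₆ τ = 0) : D ⇑E₆ τ ≠ 0 := by
  obtain ⟨c, hc0, hc⟩ := exists_D_E₆'
  rw [hc τ, h, mul_zero, add_zero]
  exact mul_ne_zero hc0 (pow_ne_zero 2 (E₄_ne_zero_of_E₆_eq_zero h))

end Fermat.Agent.S24.H64
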