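import Mathlib
import Fermat.Agent.S24.ModDefs
import Fermat.Agent.S24.H64.JDeriv

/-!
# S24 (helper64): the order of vanishing of `J - J τ₀` at `τ₀`

For every `τ₀ ∈ ℍ` the function `z ↦ Jfun (ofComplex z) - Jfun τ₀` has analytic order
`3` at `τ₀` if `Jfun τ₀ = 0`, `2` if `Jfun τ₀ = 1728`, and `1` otherwise.
-/

set_option autoImplicit false

open UpperHalfPlane ModularForm CongruenceSubgroup Matrix.SpecialLinearGroup Filter
open scoped MatrixGroups ModularForm Manifold Topology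
open Derivative

noncomputable section

namespace Fermat.Agent.S24.H64

open Fermat.Agent.S24

/-- The `J` of this package is the `Jfun` of `ModDefs`. -/
theorem Jfun_eq_J : Jfun = J := rfl

/-- A holomorphic function on `ℍ`, extended by `ofComplex`, is analytic at every point of `ℍ`. -/
theorem analyticAt_comp_ofComplex {F : ℍ → ℂ} (hF : MDiff F) (τ : ℍ) :
    AnalyticAt ℂ (F ∘ ofComplex) (τ : ℂ) :=
  (UpperHalfPlane.mdifferentiable_iff.mp hF).analyticAt
    (isOpen_upperHalfPlaneSet.mem_nhds τ.im_pos)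

theorem deriv_comp_ofComplex_ne_zero {F : ℍ → ℂ} {τ : ℍ} (h : D F τ ≠ 0) :
    deriv (F ∘ ofComplex) (τ : ℂ) ≠ 0 := by
  intro h0
  apply h
  simp only [normalizedDerivOfComplex]
  rw [h0, mul_zero]

/-- A zero of a holomorphic function with `D F ≠ 0` there has order `1`. -/
theorem analyticOrderAt_eq_one_of_D_ne_zero {F : ℍ → ℂ} (hF : MDiff F) {τ : ℍ} (h0 : F τ = 0)
    (h : D F τ ≠ 0) : analyticOrderAt (F ∘ ofComplex) (τ : ℂ) = 1 :=
  (analyticAt_comp_ofComplex hF τ).analyticOrderAt_eq_one_of_zero_deriv_ne_zero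
    (by simp [Function.comp, ofComplex_apply, h0]) (deriv_comp_ofComplex_ne_zero h)

theorem analyticAt_inv_discriminant (τ : ℍ) :
    AnalyticAt ℂ (fun z : ℂ => (discriminant (ofComplex z))⁻¹) (τ : ℂ) := by
  have h := analyticAt_comp_ofComplex mdifferentiable_discriminant τ
  exact h.inv (by simpa [Function.comp, ofComplex_apply] using discriminant_ne_zero τ)

theorem analyticOrderAt_inv_discriminant (τ : ℍ) :
    analyticOrderAt (fun z : ℂ => (discriminant (ofComplex z))⁻¹) (τ : ℂ) = 0 := by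
  rw [(analyticAt_inv_discriminant τ).analyticOrderAt_eq_zero]
  simpa [ofComplex_apply] using discriminant_ne_zero τ

/-- Order `3` at every zero of `J`. -/
theorem analyticOrderAt_J_of_eq_zero {τ₀ : ℍ} (h : J τ₀ = 0) :
    analyticOrderAt (fun z : ℂ => J (ofComplex z) - J τ₀) (τ₀ : ℂ) = 3 := by
  have h4 : E₄ τ₀ = 0 := (J_eq_zero_iff τ₀).mp h
  have e : (fun z : ℂ => J (ofComplex z) - J τ₀) =
      (⇑E₄ ∘ ofComplex) ^ 3 * (fun z : ℂ => (discriminant (ofComplex z))⁻¹) := by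
    funext z
    rw [h, sub_zero]
    simp only [Pi.mul_apply, Pi.pow_apply, Function.comp_apply, J, div_eq_mul_inv]
  have hE4 : MDiff (⇑E₄ : ℍ → ℂ) := E₄.holo'
  have hE : AnalyticAt ℂ (⇑E₄ ∘ ofComplex) (τ₀ : ℂ) := analyticAt_comp_ofComplex hE4 τ₀
  rw [e, analyticOrderAt_mul (hE.pow 3) (analyticAt_inv_discriminant τ₀),
    analyticOrderAt_pow hE, analyticOrderAt_eq_one_of_D_ne_zero hE4 h4 (D_E₄_ne_zero h4),
    analyticOrderAt_inv_discriminant]
  norm_num

/-- Order `2` at every point where `J = 1728`. -/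
theorem analyticOrderAt_J_of_eq {τ₀ : ℍ} (h : J τ₀ = 1728) :
    analyticOrderAt (fun z : ℂ => J (ofComplex z) - J τ₀) (τ₀ : ℂ) = 2 := by
  have h6 : E₆ τ₀ = 0 := (J_eq_iff τ₀).mp h
  have e : (fun z : ℂ => J (ofComplex z) - J τ₀) =
      (⇑E₆ ∘ ofComplex) ^ 2 * (fun z : ℂ => (discriminant (ofComplex z))⁻¹) := by
    funext z
    rw [h, J_sub]
    simp only [Pi.mul_apply, Pi.pow_apply, Function.comp_apply, div_eq_mul_inv]
  have hE6 : MDiff (⇑E₆ : ℍ → ℂ) := E₆.holo'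
  have hE : AnalyticAt ℂ (⇑E₆ ∘ ofComplex) (τ₀ : ℂ) := analyticAt_comp_ofComplex hE6 τ₀
  rw [e, analyticOrderAt_mul (hE.pow 2) (analyticAt_inv_discriminant τ₀),
    analyticOrderAt_pow hE, analyticOrderAt_eq_one_of_D_ne_zero hE6 h6 (D_E₆_ne_zero h6),
    analyticOrderAt_inv_discriminant]
  norm_num

/-- Order `1` at every other point. -/
theorem analyticOrderAt_J_of_ne {τ₀ : ℍ} (h0 : J τ₀ ≠ 0) (h1 : J τ₀ ≠ 1728) :
    analyticOrderAt (fun z : ℂ => J (ofComplex z) - J τ₀) (τ₀ : ℂ) = 1 := by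
  have h := (analyticAt_comp_ofComplex mdifferentiable_J τ₀).analyticOrderAt_sub_eq_one_of_deriv_ne_zero
    (deriv_comp_ofComplex_ne_zero (D_J_ne_zero h0 h1))
  simpa [Function.comp, ofComplex_apply] using h

/-- The ramification index of `J` over `c`. -/
def ramJ (c : ℂ) : ℕ := if c = 0 then 3 else if c = 1728 then 2 else 1

theorem ramJ_zero : ramJ 0 = 3 := by simp [ramJ]

theorem ramJ_1728 : ramJ 1728 = 2 := by simp [ramJ]

theorem ramJ_of_ne {c : ℂ} (h0 : c ≠ 0) (h1 : c ≠ 1728) : ramJ c = 1 := by simp [ramJ, h0, h1]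

theorem ramJ_pos (c : ℂ) : 0 < ramJ c := by
  unfold ramJ; split_ifs <;> norm_num

/-- **Local structure of `J`**: the order of `J - J τ₀` at `τ₀` is `ramJ (J τ₀)`. -/
theorem analyticOrderAt_J_sub (τ₀ : ℍ) :
    analyticOrderAt (fun z : ℂ => J (ofComplex z) - J τ₀) (τ₀ : ℂ) = (ramJ (J τ₀) : ℕ∞) := by
  by_cases h0 : J τ₀ = 0
  · rw [analyticOrderAt_J_of_eq_zero h0, h0, ramJ_zero]; rfl
  · by_cases h1 : J τ₀ = 1728
    · rw [analyticOrderAt_J_of_eq h1, h1, ramJ_1728]; rfl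
    · rw [analyticOrderAt_J_of_ne h0 h1, ramJ_of_ne h0 h1]; rfl

/-- The same statement for `Jfun` of `ModDefs`. -/
theorem analyticOrderAt_Jfun_sub (τ₀ : ℍ) :
    analyticOrderAt (fun z : ℂ => Jfun (ofComplex z) - Jfun τ₀) (τ₀ : ℂ) =
      (ramJ (Jfun τ₀) : ℕ∞) :=
  analyticOrderAt_J_sub τ₀

theorem analyticOrderAt_Jfun_sub_I :
    analyticOrderAt (fun z : ℂ => Jfun (ofComplex z) - 1728) ((UpperHalfPlane.I : ℍ) : ℂ) = 2 := by
  have h := analyticOrderAt_J_of_eq J_I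
  rw [J_I] at h
  exact h

theorem analyticOrderAt_Jfun_rho :
    analyticOrderAt (fun z : ℂ => Jfun (ofComplex z)) ((rho : ℍ) : ℂ) = 3 := by
  have h := analyticOrderAt_J_of_eq_zero J_rho
  rw [J_rho] at h
  show analyticOrderAt (fun z : ℂ => J (ofComplex z)) ((rho : ℍ) : ℂ) = 3
  simpa using h

end Fermat.Agent.S24.H64
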